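import Mathlib
import Fermat.Prelude.Def_Algebra_PatchingDatum

set_option autoImplicit false

namespace Fermat.Agent.S57

open Algebra

variable {𝒪 : Type} [CommRing 𝒪] {r : ℕ} {R : Type} [CommRing R] [Algebra 𝒪 R]
    {M : Type} [AddCommGroup M] [Module R M]

/-- Membership in `I • ⊤` of a free module, read off on coordinates. -/
theorem mem_ideal_smul_top_iff_repr {A : Type*} [CommRing A] {N : Type*} [AddCommGroup N]
    [Module A N] {ι : Type*} (e : Module.Basis ι A N) (I : Ideal A) (x : N) :
    x ∈ I • (⊤ : Submodule A N) ↔ ∀ j, e.repr x j ∈ I := by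
  rw [← e.span_eq, Submodule.mem_ideal_smul_span_iff_exists_sum]
  constructor
  · rintro ⟨a, ha, rfl⟩ j
    have : e.repr (a.sum fun i c => c • e i) = a := by
      rw [← Finsupp.linearCombination_apply, e.repr_linearCombination]
    rw [this]
    exact ha j
  · intro h
    exact ⟨e.repr x, h, by rw [← Finsupp.linearCombination_apply, e.linearCombination_repr]⟩

/-- Part (A): once the patched module `L.N` is free over the power series ring (for its
original module structure), all three conclusions follow. -/
theorem final_of_free [Nontrivial M] (L : Algebra.PatchingLevel 𝒪 r R M ⊥)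
    [Module.Free (MvPowerSeries (Fin r) 𝒪) L.N] :
    Module.Free R M ∧ Module.annihilator R M = ⊥ ∧
      RingHom.ker L.ψ = Ideal.span (Set.range fun i : Fin r => L.φ (MvPowerSeries.X i)) := by
  classical
  set I : Ideal (MvPowerSeries (Fin r) 𝒪) :=
    Ideal.span (Set.range fun i : Fin r => L.φ (MvPowerSeries.X i)) with hI
  let e := Module.Free.chooseBasis (MvPowerSeries (Fin r) 𝒪) L.N
  have hIker : I ≤ RingHom.ker L.ψ := by
    rw [hI, Ideal.span_le]
    rintro _ ⟨i, rfl⟩
    exact L.ψ_φ_X i
  have key : ∀ x : L.N, L.π x = 0 ↔ ∀ j, e.repr x j ∈ I := fun x => by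
    rw [L.ker_π x, mem_ideal_smul_top_iff_repr e]
  have hne : Nonempty (Module.Free.ChooseBasisIndex (MvPowerSeries (Fin r) 𝒪) L.N) := by
    by_contra h
    rw [not_nonempty_iff] at h
    obtain ⟨m, hm⟩ := exists_ne (0 : M)
    obtain ⟨x, rfl⟩ := L.π_surjective m
    apply hm
    rw [key]
    intro j
    exact (h.false j).elim
  have hker : RingHom.ker L.ψ = I := by
    refine le_antisymm (fun f hf => ?_) hIker
    obtain ⟨j⟩ := hne
    have h0 : L.π (f • e j) = 0 := by
      rw [L.π_smul, (RingHom.mem_ker).1 hf, zero_smul]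
    have := (key _).1 h0 j
    simpa using this
  have hli : LinearIndependent R (fun j => L.π (e j)) := by
    rw [linearIndependent_iff']
    intro s g hg j hj
    choose g' hg' using fun j => L.ψ_surjective (g j)
    have h0 : L.π (∑ j ∈ s, g' j • e j) = 0 := by
      rw [map_sum, ← hg]
      refine Finset.sum_congr rfl fun j _ => ?_
      rw [L.π_smul, hg']
    have h1 := (key _).1 h0 j
    have h2 : e.repr (∑ j ∈ s, g' j • e j) j = g' j := by
      simp [Finsupp.single_apply, hj]
    rw [h2] at h1
    rw [← hg' j]
    exact hIker h1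
  have hsp : ⊤ ≤ Submodule.span R (Set.range fun j => L.π (e j)) := by
    rintro m -
    obtain ⟨x, rfl⟩ := L.π_surjective m
    rw [← e.linearCombination_repr x, Finsupp.linearCombination_apply, Finsupp.sum, map_sum]
    refine Submodule.sum_mem _ fun j _ => ?_
    rw [L.π_smul]
    exact Submodule.smul_mem _ _ (Submodule.subset_span ⟨j, rfl⟩)
  have hfree : Module.Free R M := Module.Free.of_basis (Module.Basis.mk hli hsp)
  refine ⟨hfree, ?_, hker⟩
  rw [Module.annihilator_eq_bot]
  infer_instance

end Fermat.Agent.S57
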