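import Mathlib
import Fermat.Prelude.Def_Algebra_PatchingDatum

set_option autoImplicit false

namespace Fermat.Agent.S57

open Algebra RingTheory.Sequence IsLocalRing

variable {𝒪 : Type} [CommRing 𝒪] {r : ℕ} {R : Type} [CommRing R] [Algebra 𝒪 R]
    {M : Type} [AddCommGroup M] [Module R M]

/-- Part (B): the patched module is finitely generated for its original module structure. -/
theorem finite_N {J : Ideal (MvPowerSeries (Fin r) 𝒪)} (L : Algebra.PatchingLevel 𝒪 r R M J) :
    Module.Finite (MvPowerSeries (Fin r) 𝒪) L.N := by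
  classical
  refine ⟨⟨Finset.univ.image L.b, ?_⟩⟩
  rw [_root_.eq_top_iff]
  rintro x -
  obtain ⟨c, rfl⟩ := L.b_span x
  exact Submodule.sum_mem _ fun i _ =>
    Submodule.smul_mem _ _ (Submodule.subset_span (by simp))

theorem nontrivial_N [Nontrivial M] {J : Ideal (MvPowerSeries (Fin r) 𝒪)}
    (L : Algebra.PatchingLevel 𝒪 r R M J) : Nontrivial L.N :=
  L.π_surjective.nontrivial

/-- The `φ`-semilinear coordinate map `Λ^d → N`. -/
noncomputable def coordHom {J : Ideal (MvPowerSeries (Fin r) 𝒪)}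
    (L : Algebra.PatchingLevel 𝒪 r R M J) : (Fin L.d → MvPowerSeries (Fin r) 𝒪) →+ L.N where
  toFun c := ∑ i, L.φ (c i) • L.b i
  map_zero' := by simp
  map_add' c c' := by simp [add_smul, Finset.sum_add_distrib]

theorem coordHom_apply {J : Ideal (MvPowerSeries (Fin r) 𝒪)}
    (L : Algebra.PatchingLevel 𝒪 r R M J) (c : Fin L.d → MvPowerSeries (Fin r) 𝒪) :
    coordHom L c = ∑ i, L.φ (c i) • L.b i := rfl

theorem coordHom_smul {J : Ideal (MvPowerSeries (Fin r) 𝒪)}
    (L : Algebra.PatchingLevel 𝒪 r R M J) (f : MvPowerSeries (Fin r) 𝒪)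
    (c : Fin L.d → MvPowerSeries (Fin r) 𝒪) :
    coordHom L (f • c) = L.φ f • coordHom L c := by
  simp [coordHom_apply, Finset.smul_sum, mul_smul]

theorem coordHom_bijective (L : Algebra.PatchingLevel 𝒪 r R M ⊥) :
    Function.Bijective (coordHom L) := by
  constructor
  · rw [injective_iff_map_eq_zero]
    intro c hc
    have := (L.b_rel c).1 hc
    funext i
    simpa using this i
  · intro x
    obtain ⟨c, hc⟩ := L.b_span x
    exact ⟨c, hc.symm⟩

/-- The `φ`-semilinear coordinate isomorphism `Λ^d ≃ N` (for `J = ⊥`). -/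
noncomputable def coordEquiv (L : Algebra.PatchingLevel 𝒪 r R M ⊥) :
    (Fin L.d → MvPowerSeries (Fin r) 𝒪) ≃+ L.N :=
  AddEquiv.ofBijective (coordHom L) (coordHom_bijective L)

theorem coordEquiv_smul (L : Algebra.PatchingLevel 𝒪 r R M ⊥) (f : MvPowerSeries (Fin r) 𝒪)
    (c : Fin L.d → MvPowerSeries (Fin r) 𝒪) :
    coordEquiv L (f • c) = L.φ f • coordEquiv L c :=
  coordHom_smul L f c

/-- A sequence weakly regular on `Λ` is mapped by `φ` to a sequence weakly regular on `N`. -/
theorem isWeaklyRegular_map_phi (L : Algebra.PatchingLevel 𝒪 r R M ⊥)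
    (ts : List (MvPowerSeries (Fin r) 𝒪))
    (hreg : IsWeaklyRegular (MvPowerSeries (Fin r) 𝒪) ts) :
    IsWeaklyRegular L.N (ts.map L.φ) := by
  have h1 : IsWeaklyRegular (Fin L.d → MvPowerSeries (Fin r) 𝒪) ts :=
    ((TensorProduct.lid (MvPowerSeries (Fin r) 𝒪)
      (Fin L.d → MvPowerSeries (Fin r) 𝒪)).isWeaklyRegular_congr ts).1
      (hreg.isWeaklyRegular_rTensor (M₂ := Fin L.d → MvPowerSeries (Fin r) 𝒪))
  refine (AddEquiv.isWeaklyRegular_congr (e := coordEquiv L) ?_).1 h1
  exact List.forall₂_map_right_iff.mpr <| List.forall₂_same.mpr fun f _ c => coordEquiv_smul L f c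

/-- Any `𝒪`-algebra endomorphism of the power series ring over a local ring is local. -/
theorem phi_mem_maximalIdeal [IsLocalRing 𝒪]
    (φ : MvPowerSeries (Fin r) 𝒪 →ₐ[𝒪] MvPowerSeries (Fin r) 𝒪)
    {f : MvPowerSeries (Fin r) 𝒪} (hf : f ∈ maximalIdeal (MvPowerSeries (Fin r) 𝒪)) :
    φ f ∈ maximalIdeal (MvPowerSeries (Fin r) 𝒪) := by
  rw [mem_maximalIdeal, mem_nonunits_iff] at hf ⊢
  intro hu
  have hu0 : IsUnit (MvPowerSeries.constantCoeff (φ f)) := hu.map MvPowerSeries.constantCoeff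
  set u := MvPowerSeries.constantCoeff (φ f) with hudef
  have hf0 : ¬ IsUnit (MvPowerSeries.constantCoeff f) := fun h =>
    hf (MvPowerSeries.isUnit_iff_constantCoeff.2 h)
  -- `f - C u` is a unit
  have h1 : IsUnit (f - MvPowerSeries.C u) := by
    rw [MvPowerSeries.isUnit_iff_constantCoeff]
    rw [map_sub, MvPowerSeries.constantCoeff_C]
    have : MvPowerSeries.constantCoeff f - u = -(u - MvPowerSeries.constantCoeff f) := by ring
    rw [this, IsUnit.neg_iff]
    by_contra h
    have h2 : u - MvPowerSeries.constantCoeff f ∈ maximalIdeal 𝒪 := h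
    have h3 : MvPowerSeries.constantCoeff f ∈ maximalIdeal 𝒪 := hf0
    have h4 : u ∈ maximalIdeal 𝒪 := by
      have := Ideal.add_mem _ h2 h3
      simpa using this
    exact h4 hu0
  have h2 : IsUnit (φ (f - MvPowerSeries.C u)) := h1.map φ
  have h3 : φ (MvPowerSeries.C u) = MvPowerSeries.C u := by
    have := φ.commutes u
    simpa [MvPowerSeries.algebraMap_apply] using this
  rw [map_sub, h3, MvPowerSeries.isUnit_iff_constantCoeff, map_sub,
    MvPowerSeries.constantCoeff_C, ← hudef, sub_self] at h2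
  exact not_isUnit_zero h2

end Fermat.Agent.S57
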