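import Mathlib
import Fermat.Agent.S57.Helper57Seq

set_option autoImplicit false
set_option linter.style.haveILetI false

namespace Fermat.Agent.S57

open Algebra RingTheory.Sequence IsLocalRing

variable {𝒪 : Type} [CommRing 𝒪] {r : ℕ} {R : Type} [CommRing R] [Algebra 𝒪 R]
    {M : Type} [AddCommGroup M] [Module R M]

/-- A module over a local ring which is finitely generated and killed by the maximal ideal
is Artinian. -/
theorem isArtinian_of_finite_of_torsion {A : Type*} [CommRing A] [IsLocalRing A]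
    {V : Type*} [AddCommGroup V] [Module A V] [Module.Finite A V]
    (h : Module.IsTorsionBySet A V (maximalIdeal A : Set A)) : IsArtinian A V := by
  letI := Ideal.Quotient.field (maximalIdeal A)
  letI : Module (A ⧸ maximalIdeal A) V := h.module
  haveI : IsScalarTower A (A ⧸ maximalIdeal A) V := h.isScalarTower
  haveI : Module.Finite (A ⧸ maximalIdeal A) V :=
    Module.Finite.of_restrictScalars_finite A (A ⧸ maximalIdeal A) V
  exact isArtinian_of_surjective_algebraMap (R := A ⧸ maximalIdeal A) (S := A) (M := V)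
    Ideal.Quotient.mk_surjective

/-- Part (C), finite length: if `ts` generates the maximal ideal of `Λ`, then `N / (φ ts) N` has
finite length over `Λ`. -/
theorem isFiniteLength_quot [IsLocalRing 𝒪] {J : Ideal (MvPowerSeries (Fin r) 𝒪)}
    (L : Algebra.PatchingLevel 𝒪 r R M J)
    (ts : List (MvPowerSeries (Fin r) 𝒪))
    (hspan : Ideal.ofList ts = maximalIdeal (MvPowerSeries (Fin r) 𝒪)) :
    IsFiniteLength (MvPowerSeries (Fin r) 𝒪)
      (L.N ⧸ Ideal.ofList (ts.map L.φ) • (⊤ : Submodule (MvPowerSeries (Fin r) 𝒪) L.N)) := by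
  classical
  set P : Submodule (MvPowerSeries (Fin r) 𝒪) L.N :=
    Ideal.ofList (ts.map L.φ) • (⊤ : Submodule (MvPowerSeries (Fin r) 𝒪) L.N) with hP
  haveI : Module.Finite (MvPowerSeries (Fin r) 𝒪) L.N := finite_N L
  -- key: `φ` maps the maximal ideal into `ofList (ts.map φ)`
  have hmem : ∀ f : MvPowerSeries (Fin r) 𝒪, f ∈ maximalIdeal (MvPowerSeries (Fin r) 𝒪) →
      ∀ x : L.N, L.φ f • x ∈ P := by
    intro f hf x
    refine Submodule.smul_mem_smul ?_ Submodule.mem_top
    rw [← hspan] at hf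
    have := Ideal.mem_map_of_mem (L.φ : MvPowerSeries (Fin r) 𝒪 →+* MvPowerSeries (Fin r) 𝒪) hf
    rw [Ideal.map_ofList] at this
    exact this
  have hC : ∀ a : 𝒪, L.φ (MvPowerSeries.C a) = MvPowerSeries.C a := by
    intro a
    have := L.φ.commutes a
    simpa [MvPowerSeries.algebraMap_apply] using this
  letI : Module 𝒪 (L.N ⧸ P) :=
    Module.compHom (L.N ⧸ P) (MvPowerSeries.C : 𝒪 →+* MvPowerSeries (Fin r) 𝒪)
  have hsmul : ∀ (a : 𝒪) (y : L.N ⧸ P), a • y = (MvPowerSeries.C a : MvPowerSeries (Fin r) 𝒪) • y :=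
    fun _ _ => rfl
  haveI : IsScalarTower 𝒪 (MvPowerSeries (Fin r) 𝒪) (L.N ⧸ P) :=
    IsScalarTower.of_algebraMap_smul fun a y => by
      rw [hsmul, MvPowerSeries.algebraMap_apply]; rfl
  -- torsion by the maximal ideal of `𝒪`
  have htors : Module.IsTorsionBySet 𝒪 (L.N ⧸ P) (maximalIdeal 𝒪 : Set 𝒪) := by
    rintro y ⟨a, ha⟩
    obtain ⟨x, rfl⟩ := Submodule.Quotient.mk_surjective P y
    change a • Submodule.Quotient.mk x = 0
    rw [hsmul, ← Submodule.Quotient.mk_smul, Submodule.Quotient.mk_eq_zero, ← hC a]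
    refine hmem _ ?_ x
    rw [mem_maximalIdeal, mem_nonunits_iff, MvPowerSeries.isUnit_iff_constantCoeff,
      MvPowerSeries.constantCoeff_C]
    exact ha
  -- finite generation over `𝒪`
  haveI : Module.Finite 𝒪 (L.N ⧸ P) := by
    refine ⟨⟨Finset.univ.image fun i => (Submodule.Quotient.mk (L.b i) : L.N ⧸ P), ?_⟩⟩
    rw [_root_.eq_top_iff]
    rintro y -
    obtain ⟨x, rfl⟩ := Submodule.Quotient.mk_surjective P y
    obtain ⟨c, rfl⟩ := L.b_span x
    rw [← Submodule.mkQ_apply, map_sum]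
    refine Submodule.sum_mem _ fun i _ => ?_
    rw [Submodule.mkQ_apply]
    have h1 : (Submodule.Quotient.mk (L.φ (c i) • L.b i) : L.N ⧸ P) =
        (MvPowerSeries.constantCoeff (c i)) • (Submodule.Quotient.mk (L.b i) : L.N ⧸ P) := by
      rw [hsmul, ← Submodule.Quotient.mk_smul, Submodule.Quotient.eq, ← sub_smul, ← hC, ← map_sub]
      refine hmem _ ?_ _
      rw [mem_maximalIdeal, mem_nonunits_iff, MvPowerSeries.isUnit_iff_constantCoeff, map_sub,
        MvPowerSeries.constantCoeff_C, sub_self]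
      exact not_isUnit_zero
    rw [h1]
    exact Submodule.smul_mem _ _ (Submodule.subset_span (by simp))
  haveI : IsArtinian 𝒪 (L.N ⧸ P) := isArtinian_of_finite_of_torsion htors
  haveI : IsArtinian (MvPowerSeries (Fin r) 𝒪) (L.N ⧸ P) := isArtinian_of_tower 𝒪 inferInstance
  haveI : IsNoetherian (MvPowerSeries (Fin r) 𝒪) (L.N ⧸ P) := isNoetherian_of_finite_isArtinian _
  exact isFiniteLength_iff_isNoetherian_isArtinian.2 ⟨inferInstance, inferInstance⟩

end Fermat.Agent.S57
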