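import Mathlib

set_option autoImplicit false
set_option linter.style.haveILetI false

namespace Fermat.Agent.S57

open CategoryTheory Abelian IsLocalRing RingTheory.Sequence

universe u

variable {A : Type u} [CommRing A] [IsLocalRing A]

/-- Dévissage: over a local ring whose residue field has projective dimension `< n`,
every module of finite length has projective dimension `< n`. -/
theorem hasProjectiveDimensionLT_of_isFiniteLength (n : ℕ)
    (hk : HasProjectiveDimensionLT (ModuleCat.of A (A ⧸ maximalIdeal A)) n)
    {X : Type u} [AddCommGroup X] [Module A X] (hX : IsFiniteLength A X) :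
    HasProjectiveDimensionLT (ModuleCat.of A X) n := by
  induction hX with
  | of_subsingleton =>
    rename_i M _ _ _
    haveI : HasProjectiveDimensionLT (ModuleCat.of A M) 0 :=
      (ModuleCat.isZero_of_subsingleton (ModuleCat.of A M)).hasProjectiveDimensionLT_zero
    exact hasProjectiveDimensionLT_of_ge _ 0 n (Nat.zero_le n)
  | of_simple_quotient _ ih =>
    rename_i M _ _ N' hsimple _
    let S : ShortComplex (ModuleCat.{u} A) :=
      ModuleCat.shortComplexOfCompEqZero N'.subtype N'.mkQ (by ext; simp)
    have hS : S.ShortExact :=
      ModuleCat.shortComplex_shortExact S (LinearMap.exact_subtype_mkQ N')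
        N'.injective_subtype N'.mkQ_surjective
    obtain ⟨I, hI, ⟨e⟩⟩ := isSimpleModule_iff_quot_maximal.mp hsimple
    obtain rfl : I = maximalIdeal A := IsLocalRing.eq_maximalIdeal hI
    have h3 : HasProjectiveDimensionLT S.X₃ n :=
      hasProjectiveDimensionLT_of_iso (e.symm.toModuleIso) n
    exact hS.hasProjectiveDimensionLT_X₂ n ih h3

variable [IsNoetherianRing A]

/-- Part (E): a finitely generated module over a regular local ring (maximal ideal generated
by a regular sequence `ts`) having a regular sequence `rs` of the same length in the maximal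
ideal with `N / (rs) N` of finite length is free. -/
theorem free_of_regular_of_isFiniteLength (ts rs : List A)
    (hts : IsWeaklyRegular A ts) (hspan : Ideal.ofList ts = maximalIdeal A)
    {N : Type u} [AddCommGroup N] [Module A N] [Module.Finite A N] [Nontrivial N]
    (hlen : rs.length = ts.length) (hmem : ∀ x ∈ rs, x ∈ maximalIdeal A)
    (hrs : IsWeaklyRegular N rs)
    (hfl : IsFiniteLength A (N ⧸ Ideal.ofList rs • (⊤ : Submodule A N))) :
    Module.Free A N := by
  have hts_mem : ∀ x ∈ ts, x ∈ maximalIdeal A := fun x hx => by
    rw [← hspan]; exact Ideal.subset_span hx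
  have hreg : IsRegular A ts := IsRegular.of_isWeaklyRegular_of_mem_maximalIdeal A hts_mem hts
  -- projective dimension of the residue field
  have h1 := ModuleCat.projectiveDimension_quotient_eq_length.{u} ts hreg
  have h2 : HasProjectiveDimensionLE (ModuleCat.of A (Shrink.{u} (A ⧸ Ideal.ofList ts))) ts.length :=
    (projectiveDimension_le_iff _ _).1 h1.le
  have hk : HasProjectiveDimensionLT (ModuleCat.of A (A ⧸ maximalIdeal A)) (ts.length + 1) := by
    rw [← hspan]
    exact hasProjectiveDimensionLT_of_iso
      (Shrink.linearEquiv A (A ⧸ Ideal.ofList ts)).toModuleIso _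
  -- projective dimension of the finite length quotient
  have h3 : HasProjectiveDimensionLT
      (ModuleCat.of A (N ⧸ Ideal.ofList rs • (⊤ : Submodule A N))) (ts.length + 1) :=
    hasProjectiveDimensionLT_of_isFiniteLength _ hk hfl
  have h4 := ModuleCat.projectiveDimension_quotient_eq_add_length_of_isWeaklyRegular.{u}
    (ModuleCat.of A N) rs hrs hmem
  have h5 : projectiveDimension (ModuleCat.of A (N ⧸ Ideal.ofList rs • (⊤ : Submodule A N))) ≤
      (ts.length : ℕ) := (projectiveDimension_le_iff _ _).2 h3
  rw [h4, hlen] at h5
  have h6 : projectiveDimension (ModuleCat.of A N) ≤ (0 : ℕ) := by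
    have : projectiveDimension (ModuleCat.of A N) + (ts.length : ℕ) ≤ (0 : ℕ) + (ts.length : ℕ) := by
      simpa using h5
    exact (ENat.WithBot.add_le_add_natCast_right_iff).1 this
  have h7 : Projective (ModuleCat.of A N) :=
    (projective_iff_hasProjectiveDimensionLE_zero _).2 ((projectiveDimension_le_iff _ _).1 h6)
  haveI : Module.Projective A N := (IsProjective.iff_projective (R := A) (P := N)).2 h7
  exact Module.free_of_flat_of_isLocalRing

end Fermat.Agent.S57
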