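import Mathlib

set_option autoImplicit false
set_option linter.style.haveILetI false

namespace Fermat.Agent.S57

open RingTheory.Sequence IsLocalRing

/-- The maximal ideal of the local ring `B` is generated by a weakly regular sequence. -/
def HasRegGen (B : Type*) [CommRing B] [IsLocalRing B] : Prop :=
  ∃ ts : List B, IsWeaklyRegular B ts ∧ Ideal.ofList ts = maximalIdeal B

theorem HasRegGen.of_ringEquiv {B B' : Type*} [CommRing B] [CommRing B'] [IsLocalRing B]
    [IsLocalRing B'] (e : B ≃+* B') (h : HasRegGen B) : HasRegGen B' := by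
  obtain ⟨ts, hreg, hspan⟩ := h
  refine ⟨ts.map e, ?_, ?_⟩
  · refine (AddEquiv.isWeaklyRegular_congr (e := e.toAddEquiv) ?_).1 hreg
    exact List.forall₂_map_right_iff.mpr <| List.forall₂_same.mpr fun f _ c => by
      simp
  · have := Ideal.map_ofList (e : B →+* B') ts
    rw [hspan, IsLocalRing.map_maximalIdeal_of_surjective (e : B →+* B') e.surjective] at this
    exact this.symm

theorem HasRegGen.powerSeries {B : Type*} [CommRing B] [IsLocalRing B] (h : HasRegGen B) :
    HasRegGen (PowerSeries B) := by
  obtain ⟨ts, hreg, hspan⟩ := h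
  refine ⟨PowerSeries.X :: ts.map (PowerSeries.C : B →+* PowerSeries B), ?_, ?_⟩
  · rw [isWeaklyRegular_cons_iff]
    refine ⟨?_, ?_⟩
    · intro a b hab
      exact PowerSeries.X_mul_cancel hab
    · -- the additive equivalence `B⟦X⟧ / X ≃ B`
      let g : QuotSMulTop (PowerSeries.X : PowerSeries B) (PowerSeries B)
          →ₛₗ[(PowerSeries.constantCoeff : PowerSeries B →+* B)] B :=
        Submodule.liftQ _ (PowerSeries.constantCoeff : PowerSeries B →+* B).toSemilinearMap (by
          intro f hf
          obtain ⟨f', -, rfl⟩ := (Submodule.mem_smul_pointwise_iff_exists _ _ _).1 hf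
          simp)
      have hg : ∀ f : PowerSeries B, g (Submodule.Quotient.mk f) = PowerSeries.constantCoeff f :=
        fun f => rfl
      have hinj : Function.Injective g := by
        rw [injective_iff_map_eq_zero]
        intro y hy
        obtain ⟨f, rfl⟩ := Submodule.Quotient.mk_surjective _ y
        rw [hg, ← PowerSeries.X_dvd_iff] at hy
        obtain ⟨f', rfl⟩ := hy
        rw [Submodule.Quotient.mk_eq_zero]
        exact Submodule.smul_mem_pointwise_smul f' PowerSeries.X ⊤ Submodule.mem_top
      have hsurj : Function.Surjective g := fun b =>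
        ⟨Submodule.Quotient.mk (PowerSeries.C b), by rw [hg]; simp⟩
      let e : QuotSMulTop (PowerSeries.X : PowerSeries B) (PowerSeries B) ≃+ B :=
        AddEquiv.ofBijective g.toAddMonoidHom ⟨hinj, hsurj⟩
      refine (AddEquiv.isWeaklyRegular_congr (e := e) ?_).2 hreg
      refine List.forall₂_map_left_iff.mpr <| List.forall₂_same.mpr fun t _ y => ?_
      change g (PowerSeries.C t • y) = t • g y
      rw [map_smulₛₗ]
      simp
  · rw [Ideal.ofList_cons, ← Ideal.map_ofList, hspan]
    apply le_antisymm
    · rw [sup_le_iff, Ideal.span_le, Set.singleton_subset_iff, Ideal.map_le_iff_le_comap]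
      refine ⟨?_, fun b hb => ?_⟩
      · change PowerSeries.X ∈ maximalIdeal (PowerSeries B)
        rw [mem_maximalIdeal, mem_nonunits_iff, PowerSeries.isUnit_iff_constantCoeff]
        simp
      · rw [Ideal.mem_comap, mem_maximalIdeal, mem_nonunits_iff,
          PowerSeries.isUnit_iff_constantCoeff]
        simpa using hb
    · intro f hf
      rw [mem_maximalIdeal, mem_nonunits_iff, PowerSeries.isUnit_iff_constantCoeff] at hf
      have h1 : f - PowerSeries.C (PowerSeries.constantCoeff f) ∈
          Ideal.span {(PowerSeries.X : PowerSeries B)} := by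
        rw [Ideal.mem_span_singleton, PowerSeries.X_dvd_iff]
        simp
      have h2 : PowerSeries.C (PowerSeries.constantCoeff f) ∈
          Ideal.map (PowerSeries.C : B →+* PowerSeries B) (maximalIdeal B) :=
        Ideal.mem_map_of_mem _ hf
      have := Ideal.add_mem _ (Ideal.mem_sup_left h1) (Ideal.mem_sup_right h2)
      simpa using this

theorem HasRegGen.mvPowerSeries {B : Type*} [CommRing B] [IsLocalRing B] (h : HasRegGen B)
    (n : ℕ) : HasRegGen (MvPowerSeries (Fin n) B) := by
  induction n with
  | zero => exact h.of_ringEquiv (MvPowerSeries.isEmptyEquiv (Fin 0) B).toRingEquiv.symm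
  | succ n ih => exact ih.powerSeries.of_ringEquiv (MvPowerSeries.finSuccEquiv B n).toRingEquiv.symm

theorem HasRegGen.of_dvr (𝒪 : Type*) [CommRing 𝒪] [IsDomain 𝒪] [IsDiscreteValuationRing 𝒪] :
    HasRegGen 𝒪 := by
  obtain ⟨ϖ, hϖ⟩ := IsDiscreteValuationRing.exists_irreducible 𝒪
  refine ⟨[ϖ], ?_, ?_⟩
  · rw [isWeaklyRegular_singleton_iff]
    intro a b hab
    exact mul_left_cancel₀ hϖ.ne_zero hab
  · rw [Ideal.ofList_singleton, hϖ.maximalIdeal_eq]

/-- Part (D). -/
theorem exists_regular_generators (𝒪 : Type*) [CommRing 𝒪] [IsDomain 𝒪]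
    [IsDiscreteValuationRing 𝒪] (r : ℕ) :
    ∃ ts : List (MvPowerSeries (Fin r) 𝒪), IsWeaklyRegular (MvPowerSeries (Fin r) 𝒪) ts ∧
      Ideal.ofList ts = maximalIdeal (MvPowerSeries (Fin r) 𝒪) :=
  (HasRegGen.of_dvr 𝒪).mvPowerSeries r

end Fermat.Agent.S57
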